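/-
JT3 / reduction side, blueprint JT3-R1 (D2)(2) = node A3: NORM DESCENT (pure commutative algebra).

Let `R ⊆ S` be a finite extension of Dedekind domains over a field `k` all of whose residue fields
are `k` (e.g. `k` algebraically closed and `S` of finite type), and let `D ⊆ R` be a `k`-subalgebra
such that `R` is a finite `D`-module and `D` contains the norm of every element of `S`.
Then `D = R`.  No separability is used.

Proof: for a maximal ideal `n` of `D` with primes `Q₁, …, Q_r` of `R` above it, the Chinese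
remainder theorem in `S` gives `T_i` which is a uniformiser at ONE prime of `S` over `Q_i` and a unit
at all other primes of `S` over `n`; `s_i := Nm T_i ∈ D` is a uniformiser at `Q_i` (relative ideal
norm, residue degrees one) and a unit at the other `Q_j`.  The `s_i` separate the `Q_i` modulo `n R`
and generate them locally, so `R = D + n R`; Nakayama finishes.
-/
import Mathlib

set_option autoImplicit false
set_option linter.unusedSectionVars false

namespace Fermat.Agent.JT3

open Ideal Module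

section A

variable {R S : Type*} [CommRing R] [IsDedekindDomain R] [CommRing S] [IsDedekindDomain S]
  [Algebra R S] [Module.Finite R S] [FaithfulSMul R S]

/-- In a finite extension of Dedekind domains, if all residue degrees over a maximal ideal `Q` are
one then the relative norm of every prime over `Q` is `Q` (no separability needed). -/
theorem nds_relNorm_eq (Q : Ideal R) [Q.IsMaximal] (hQ : Q ≠ ⊥)
    (hf : ∀ P ∈ Q.primesOver S, P.inertiaDeg R = 1) (P : Ideal S) (hP : P ∈ Q.primesOver S) :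
    relNorm R P = Q := by
  classical
  have hex : ∀ P' : Q.primesOver S, ∃ s, relNorm R P'.1 = Q ^ s := by
    intro P'
    have : P'.1.LiesOver Q := P'.2.2
    exact exists_relNorm_eq_pow_of_isPrime P'.1 Q
  choose s hs using hex
  have hs1 : ∀ P' : Q.primesOver S, 1 ≤ s P' := by
    intro P'
    by_contra h
    have h0 : s P' = 0 := by omega
    have h1 := hs P'
    rw [h0, pow_zero, Ideal.one_eq_top] at h1
    have h2 := relNorm_le_comap R P'.1
    rw [h1, top_le_iff, Ideal.comap_eq_top_iff] at h2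
    exact P'.2.1.ne_top h2
  have he : ∀ P' : Q.primesOver S, 0 < P'.1.ramificationIdx R := by
    intro P'
    have : P'.1.IsPrime := P'.2.1
    exact ramificationIdx_pos P'.1 R
  have key : Q ^ finrank R S = Q ^ ∑ P' : Q.primesOver S, s P' * P'.1.ramificationIdx R := by
    rw [← relNorm_algebraMap S Q, map_algebraMap_eq_finsetProd_pow (R := S) hQ, map_prod,
      ← Finset.prod_set_coe, ← Finset.prod_pow_eq_pow_sum]
    refine Finset.prod_congr rfl fun P' _ => ?_
    rw [map_pow, hs P', ← pow_mul]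
  have hinj : Function.Injective (fun n : ℕ => Q ^ n) := by
    have h1 : Q ≠ 1 := by
      rw [Ideal.one_eq_top]
      exact IsMaximal.ne_top inferInstance
    exact (IsLeftCancelMulZero.mul_left_cancel_of_ne_zero hQ).pow_injective h1
  have hsum := hinj key
  have hfund := sum_ramification_inertia_eq_finrank Q S
  have hfund' : ∑ P' : Q.primesOver S, P'.1.ramificationIdx R = finrank R S := by
    rw [← hfund]
    refine Finset.sum_congr rfl fun P' _ => ?_
    rw [hf P'.1 P'.2, mul_one]
  have hle : ∀ P' ∈ (Finset.univ : Finset (Q.primesOver S)),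
      P'.1.ramificationIdx R ≤ s P' * P'.1.ramificationIdx R := by
    intro P' _
    exact Nat.le_mul_of_pos_left _ (hs1 P')
  have heq := (Finset.sum_eq_sum_iff_of_le hle).mp (by rw [hfund', ← hsum])
  have h1 := heq ⟨P, hP⟩ (Finset.mem_univ _)
  have hsP : s ⟨P, hP⟩ = 1 := by
    have h2 := he ⟨P, hP⟩
    have h3 : s ⟨P, hP⟩ * P.ramificationIdx R = 1 * P.ramificationIdx R := by
      rw [one_mul]
      exact h1.symm
    exact Nat.eq_of_mul_eq_mul_right h2 h3
  have := hs ⟨P, hP⟩
  rw [hsP, pow_one] at this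
  exact this

end A

section C

variable {R S : Type*} [CommRing R] [IsDedekindDomain R] [CommRing S] [IsDedekindDomain S]
  [Algebra R S] [Module.Finite R S] [FaithfulSMul R S]

/-- If the relative norm of `J` lies in the maximal ideal `Q`, some prime over `Q` contains `J`. -/
theorem nds_exists_prime_of_relNorm_le (Q : Ideal R) [Q.IsMaximal] (J : Ideal S)
    (h : relNorm R J ≤ Q) : ∃ P ∈ Q.primesOver S, J ≤ P := by
  classical
  by_cases hJ : J = ⊥
  · subst hJ
    obtain ⟨P, hPm, hP⟩ := exists_maximal_ideal_liesOver_of_isIntegral (S := S) Q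
    exact ⟨P, ⟨hPm.isPrime, hP⟩, bot_le⟩
  rw [← Ideal.prod_normalizedFactors_eq_self hJ, map_multiset_prod] at h
  obtain ⟨I, hI, hIQ⟩ := (Ideal.IsPrime.multiset_prod_le (inferInstance : Q.IsPrime)).mp h
  obtain ⟨P, hP, rfl⟩ := Multiset.mem_map.mp hI
  obtain ⟨hPp, hJP⟩ := (Ideal.mem_normalizedFactors_iff hJ).mp hP
  have : (P.under R).IsPrime := IsPrime.under R P
  have hlo : P.LiesOver (P.under R) := ⟨rfl⟩
  obtain ⟨s, hs⟩ := exists_relNorm_eq_pow_of_isPrime P (P.under R)
  rw [hs] at hIQ
  have hle : P.under R ≤ Q := IsPrime.le_of_pow_le hIQ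
  have hP0 : P ≠ ⊥ := fun h0 => hJ (le_bot_iff.mp (h0 ▸ hJP))
  have hu0 : P.under R ≠ ⊥ := fun h0 => hP0 (eq_bot_of_comap_eq_bot h0)
  have hmax : (P.under R).IsMaximal := IsPrime.isMaximal inferInstance hu0
  have heq : P.under R = Q := hmax.eq_of_le (IsMaximal.ne_top inferInstance) hle
  exact ⟨P, ⟨hPp, ⟨heq.symm⟩⟩, hJP⟩

/-- If `T` lies in no prime over `Q`, its norm does not lie in `Q`. -/
theorem nds_intNorm_notMem (Q : Ideal R) [Q.IsMaximal] (T : S)
    (h : ∀ P ∈ Q.primesOver S, T ∉ P) : Algebra.intNorm R S T ∉ Q := by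
  intro hmem
  have h1 : relNorm R (span {T}) ≤ Q := by
    rw [relNorm_singleton, span_singleton_le_iff_mem]
    exact hmem
  obtain ⟨P, hP, hle⟩ := nds_exists_prime_of_relNorm_le Q _ h1
  exact h P hP (hle (mem_span_singleton_self T))

/-- If `T` is a uniformiser at one prime `P₀` over `Q` and a unit at the others, and all residue
degrees are one, then the norm of `T` is a uniformiser at `Q`: there is an ideal `I ⊄ Q` with
`(Nm T) = Q * I`. -/
theorem nds_intNorm_uniformizer (Q : Ideal R) [Q.IsMaximal] (hQ : Q ≠ ⊥)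
    (hf : ∀ P ∈ Q.primesOver S, P.inertiaDeg R = 1) (P₀ : Ideal S) (hP₀ : P₀ ∈ Q.primesOver S)
    (T : S) (hT : T ∈ P₀) (hT2 : T ∉ P₀ ^ 2) (hT' : ∀ P ∈ Q.primesOver S, P ≠ P₀ → T ∉ P) :
    ∃ I : Ideal R, ¬ I ≤ Q ∧ span {Algebra.intNorm R S T} = Q * I := by
  obtain ⟨J, hJ⟩ := (dvd_span_singleton (I := P₀)).mpr hT
  have hJ' : ∀ P ∈ Q.primesOver S, ¬ J ≤ P := by
    intro P hP hle
    by_cases hPP : P = P₀
    · subst hPP
      apply hT2
      have : span {T} ≤ P ^ 2 := by
        rw [hJ, pow_two]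
        exact Ideal.mul_mono_right hle
      exact this (mem_span_singleton_self T)
    · apply hT' P hP hPP
      have : span {T} ≤ P := by
        rw [hJ]
        exact Ideal.mul_le_right.trans hle
      exact this (mem_span_singleton_self T)
  refine ⟨relNorm R J, ?_, ?_⟩
  · intro hle
    obtain ⟨P, hP, hJP⟩ := nds_exists_prime_of_relNorm_le Q J hle
    exact hJ' P hP hJP
  · rw [← relNorm_singleton, hJ, map_mul, nds_relNorm_eq Q hQ hf P₀ hP₀]

end C

section D

variable {S : Type*} [CommRing S] [IsDedekindDomain S]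

/-- Chinese remainder theorem: an element which is a uniformiser at `P₀` and a unit at finitely
many other primes. -/
theorem nds_exists_uniformizer (Ps : Finset (Ideal S)) (hPs : ∀ P ∈ Ps, P.IsPrime ∧ P ≠ ⊥)
    (P₀ : Ideal S) (hP₀ : P₀ ∈ Ps) :
    ∃ T : S, T ∈ P₀ ∧ T ∉ P₀ ^ 2 ∧ ∀ P ∈ Ps, P ≠ P₀ → T ∉ P := by
  classical
  have hP₀p := (hPs P₀ hP₀).1
  have hlt : P₀ ^ 2 < P₀ := pow_lt_self P₀ (hPs P₀ hP₀).2 hP₀p.ne_top 2 le_rfl
  obtain ⟨ϖ, hϖ, hϖ2⟩ := SetLike.exists_of_lt hlt
  obtain ⟨y, hy⟩ := IsDedekindDomain.exists_forall_sub_mem_ideal (s := Ps) (fun P => P)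
    (fun P => if P = P₀ then 2 else 1)
    (fun P hP => Ideal.prime_of_isPrime (hPs P hP).2 (hPs P hP).1)
    (fun P _ P' _ hne => hne) (fun P => if (P : Ideal S) = P₀ then ϖ else 1)
  refine ⟨y, ?_, ?_, ?_⟩
  · have h := hy P₀ hP₀
    simp only [if_true] at h
    have h2 : y - ϖ ∈ P₀ := hlt.le h
    have : y = (y - ϖ) + ϖ := by ring
    rw [this]
    exact P₀.add_mem h2 hϖ
  · intro hy2
    have h := hy P₀ hP₀
    simp only [if_true] at h
    apply hϖ2
    have : ϖ = y - (y - ϖ) := by ring
    rw [this]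
    exact (P₀ ^ 2).sub_mem hy2 h
  · intro P hP hne hyP
    have h := hy P hP
    simp only [if_neg hne, pow_one] at h
    have : (1 : S) = y - (y - 1) := by ring
    exact (hPs P hP).1.ne_top ((Ideal.eq_top_iff_one P).mpr (this ▸ P.sub_mem hyP h))

end D

section Main

variable {k R S : Type*} [Field k] [CommRing R] [IsDedekindDomain R] [CommRing S]
  [IsDedekindDomain S] [Algebra k R] [Algebra k S] [Algebra R S] [IsScalarTower k R S]
  [Module.Finite R S] [FaithfulSMul R S]

/-- residue degree one -/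
theorem nds_inertiaDeg_eq_one
    (hres : ∀ P : Ideal S, P.IsMaximal → ∀ y : S, ∃ c : k, y - algebraMap k S c ∈ P)
    (Q : Ideal R) [Q.IsMaximal] (P : Ideal S) (hP : P ∈ Q.primesOver S) :
    P.inertiaDeg R = 1 := by
  have hPp : P.IsPrime := hP.1
  have hlo : P.LiesOver Q := hP.2
  have hPm : P.IsMaximal := IsMaximal.of_liesOver_isMaximal P Q
  rw [inertiaDeg_eq_of_isMaximal Q P]
  let _ : Field (R ⧸ Q) := Quotient.field Q
  let _ : Field (S ⧸ P) := Quotient.field P
  rw [finrank_eq_one_iff_of_nonzero' (1 : S ⧸ P) one_ne_zero]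
  intro w
  obtain ⟨y, rfl⟩ := Ideal.Quotient.mk_surjective w
  obtain ⟨c, hc⟩ := hres P hPm y
  refine ⟨Ideal.Quotient.mk Q (algebraMap k R c), ?_⟩
  rw [Algebra.smul_def, mul_one]
  change Ideal.Quotient.mk P (algebraMap R S (algebraMap k R c)) = _
  rw [← IsScalarTower.algebraMap_apply, eq_comm, Ideal.Quotient.eq]
  exact hc

/-- the residue fields of `R` are `k` too -/
theorem nds_res_R
    (hres : ∀ P : Ideal S, P.IsMaximal → ∀ y : S, ∃ c : k, y - algebraMap k S c ∈ P)
    (Q : Ideal R) [Q.IsMaximal] (x : R) : ∃ c : k, x - algebraMap k R c ∈ Q := by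
  obtain ⟨P, hPm, hP⟩ := exists_maximal_ideal_liesOver_of_isIntegral (S := S) Q
  obtain ⟨c, hc⟩ := hres P hPm (algebraMap R S x)
  refine ⟨c, ?_⟩
  rw [hP.over, under_def, mem_comap, map_sub, ← IsScalarTower.algebraMap_apply]
  exact hc

end Main

section Main

variable {k R S : Type*} [Field k] [CommRing R] [IsDedekindDomain R] [CommRing S]
  [IsDedekindDomain S] [Algebra k R] [Algebra k S] [Algebra R S] [IsScalarTower k R S]
  [Module.Finite R S] [FaithfulSMul R S]

variable (D : Subalgebra k R) [Module.Finite D R]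

/-- the separating norms -/
theorem nds_exists_sep (hR : ¬ IsField R)
    (hres : ∀ P : Ideal S, P.IsMaximal → ∀ y : S, ∃ c : k, y - algebraMap k S c ∈ P)
    (hnorm : ∀ y : S, Algebra.intNorm R S y ∈ D) (n : Ideal D) [n.IsMaximal] :
    ∃ s : n.primesOver R → R, (∀ Q, s Q ∈ D) ∧
      (∀ Q, ∃ I : Ideal R, ¬ I ≤ Q.1 ∧ span {s Q} = Q.1 * I) ∧
      ∀ Q Q' : n.primesOver R, Q' ≠ Q → s Q ∉ Q'.1 := by
  classical
  have hfin : Module.Finite D S := Module.Finite.trans R S
  -- facts on the primes of `R` over `n`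
  have hQmax : ∀ Q : n.primesOver R, Q.1.IsMaximal := by
    intro Q
    have : Q.1.IsPrime := Q.2.1
    have : Q.1.LiesOver n := Q.2.2
    exact IsMaximal.of_liesOver_isMaximal Q.1 n
  have hQ0 : ∀ Q : n.primesOver R, Q.1 ≠ ⊥ := fun Q =>
    Ring.ne_bot_of_isMaximal_of_not_isField (hQmax Q) hR
  -- the primes of `S` over `n`
  set Ps : Finset (Ideal S) := (n.primesOver S).toFinset with hPs
  have hPs_mem : ∀ (Q : n.primesOver R) (P : Ideal S), P ∈ Q.1.primesOver S → P ∈ Ps := by
    intro Q P hP
    rw [hPs, Set.mem_toFinset]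
    have : P.LiesOver Q.1 := hP.2
    have : Q.1.LiesOver n := Q.2.2
    exact ⟨hP.1, LiesOver.trans P Q.1 n⟩
  have hPs_prime : ∀ P ∈ Ps, P.IsPrime ∧ P ≠ ⊥ := by
    intro P hP
    rw [hPs, Set.mem_toFinset] at hP
    refine ⟨hP.1, ?_⟩
    rintro rfl
    have h1 : n = under D (⊥ : Ideal S) := hP.2.over
    have h2 : under D (⊥ : Ideal S) = ⊥ := by
      rw [under_def]
      exact (RingHom.injective_iff_ker_eq_bot _).mp (FaithfulSMul.algebraMap_injective D S)
    -- `n = ⊥` forces `D` to be a field, hence `R` a field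
    have hD : IsField D := by
      rw [Ring.isField_iff_maximal_bot, ← h2, ← h1]
      infer_instance
    exact hR (isField_of_isIntegral_of_isField' hD)
  -- choose a prime of `S` over each `Q`
  have hex : ∀ Q : n.primesOver R, ∃ P : Ideal S, P ∈ Q.1.primesOver S := by
    intro Q
    have := hQmax Q
    obtain ⟨P, hPm, hP⟩ := exists_maximal_ideal_liesOver_of_isIntegral (S := S) Q.1
    exact ⟨P, hPm.isPrime, hP⟩
  choose P₀ hP₀ using hex
  have hT : ∀ Q : n.primesOver R, ∃ T : S, T ∈ P₀ Q ∧ T ∉ P₀ Q ^ 2 ∧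
      ∀ P ∈ Ps, P ≠ P₀ Q → T ∉ P := fun Q =>
    nds_exists_uniformizer Ps hPs_prime (P₀ Q) (hPs_mem Q _ (hP₀ Q))
  choose T hT1 hT2 hT3 using hT
  refine ⟨fun Q => Algebra.intNorm R S (T Q), fun Q => hnorm _, fun Q => ?_, fun Q Q' hne => ?_⟩
  · have := hQmax Q
    exact nds_intNorm_uniformizer Q.1 (hQ0 Q)
      (fun P hP => nds_inertiaDeg_eq_one hres Q.1 P hP) (P₀ Q) (hP₀ Q) (T Q) (hT1 Q) (hT2 Q)
      (fun P hP hne => hT3 Q P (hPs_mem Q P hP) hne)
  · have := hQmax Q'
    refine nds_intNorm_notMem Q'.1 (T Q) fun P hP => hT3 Q P (hPs_mem Q' P hP) ?_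
    rintro rfl
    apply hne
    have h1 : Q'.1 = under R (P₀ Q) := hP.2.over
    have h2 : Q.1 = under R (P₀ Q) := (hP₀ Q).2.over
    exact Subtype.ext (h1.trans h2.symm)

end Main

section Main

variable {k R S : Type*} [Field k] [CommRing R] [IsDedekindDomain R] [CommRing S]
  [IsDedekindDomain S] [Algebra k R] [Algebra k S] [Algebra R S] [IsScalarTower k R S]
  [Module.Finite R S] [FaithfulSMul R S]

variable (D : Subalgebra k R) [Module.Finite D R]

/-- the local step: `R = D + n R` for every maximal ideal `n` of `D`. -/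
theorem nds_mem_sup (hR : ¬ IsField R)
    (hres : ∀ P : Ideal S, P.IsMaximal → ∀ y : S, ∃ c : k, y - algebraMap k S c ∈ P)
    (hnorm : ∀ y : S, Algebra.intNorm R S y ∈ D) (n : Ideal D) [n.IsMaximal] (x : R) :
    ∃ d : D, x - (d : R) ∈ n.map (algebraMap D R) := by
  classical
  obtain ⟨s, hsD, hsU, hsN⟩ := nds_exists_sep D hR hres hnorm n
  have hQmax : ∀ Q : n.primesOver R, Q.1.IsMaximal := by
    intro Q
    have : Q.1.IsPrime := Q.2.1
    have : Q.1.LiesOver n := Q.2.2
    exact IsMaximal.of_liesOver_isMaximal Q.1 n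
  have hsQ : ∀ Q : n.primesOver R, s Q ∈ Q.1 := by
    intro Q
    obtain ⟨I, _, hI⟩ := hsU Q
    have : span {s Q} ≤ Q.1 := hI ▸ Ideal.mul_le_left
    exact this (mem_span_singleton_self _)
  -- the separating elements
  set w : n.primesOver R → R := fun Q => ∏ Q' ∈ Finset.univ.erase Q, s Q' with hw
  have hwD : ∀ Q, w Q ∈ D := fun Q => Subalgebra.prod_mem D fun Q' _ => hsD Q'
  have hw_mem : ∀ Q Q' : n.primesOver R, Q' ≠ Q → w Q ∈ Q'.1 := by
    intro Q Q' hne
    exact Ideal.mem_of_dvd _
      (Finset.dvd_prod_of_mem _ (Finset.mem_erase.mpr ⟨hne, Finset.mem_univ _⟩)) (hsQ Q')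
  have hw_notMem : ∀ Q : n.primesOver R, w Q ∉ Q.1 := by
    intro Q hmem
    have : Q.1.IsPrime := Q.2.1
    obtain ⟨Q', hQ', h⟩ := IsPrime.prod_mem_iff.mp hmem
    exact hsN Q' Q (Finset.ne_of_mem_erase hQ').symm h
  -- the coefficients
  have hα : ∀ Q : n.primesOver R, ∃ α : k, x - algebraMap k R α * w Q ∈ Q.1 := by
    intro Q
    have := hQmax Q
    obtain ⟨c, hc⟩ := nds_res_R (S := S) hres Q.1 x
    obtain ⟨b, hb⟩ := nds_res_R (S := S) hres Q.1 (w Q)
    have hb0 : b ≠ 0 := by
      rintro rfl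
      rw [map_zero, sub_zero] at hb
      exact hw_notMem Q hb
    refine ⟨c / b, ?_⟩
    have e : x - algebraMap k R (c / b) * w Q =
        (x - algebraMap k R c) - algebraMap k R (c / b) * (w Q - algebraMap k R b) := by
      have : algebraMap k R (c / b) * algebraMap k R b = algebraMap k R c := by
        rw [← map_mul, div_mul_cancel₀ c hb0]
      linear_combination -this
    rw [e]
    exact Q.1.sub_mem hc (Q.1.mul_mem_left _ hb)
  choose α hα using hα
  set d : R := ∑ Q : n.primesOver R, algebraMap k R (α Q) * w Q with hd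
  have hdD : d ∈ D :=
    Subalgebra.sum_mem D fun Q _ => D.mul_mem (D.algebraMap_mem _) (hwD Q)
  refine ⟨⟨d, hdD⟩, ?_⟩
  change x - d ∈ _
  -- `x - d` lies in every prime over `n`
  have hx' : ∀ Q : n.primesOver R, x - d ∈ Q.1 := by
    intro Q
    have e : x - d = (x - algebraMap k R (α Q) * w Q) -
        ∑ Q' ∈ Finset.univ.erase Q, algebraMap k R (α Q') * w Q' := by
      rw [hd, ← Finset.add_sum_erase _ _ (Finset.mem_univ Q)]
      ring
    rw [e]
    refine Q.1.sub_mem (hα Q) (Q.1.sum_mem fun Q' hQ' => Q.1.mul_mem_left _ ?_)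
    exact hw_mem Q' Q (Finset.ne_of_mem_erase hQ').symm
  -- the colon ideal
  by_contra hnot
  set nR : Ideal R := n.map (algebraMap D R) with hnR
  let I : Ideal R :=
    { carrier := {y | y * (x - d) ∈ nR}
      add_mem' := fun {a b} ha hb => by
        change (a + b) * (x - d) ∈ nR
        rw [add_mul]
        exact nR.add_mem ha hb
      zero_mem' := by
        change 0 * (x - d) ∈ nR
        rw [zero_mul]
        exact nR.zero_mem
      smul_mem' := fun c {a} ha => by
        change c • a * (x - d) ∈ nR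
        rw [smul_eq_mul, mul_assoc]
        exact nR.mul_mem_left c ha }
  have hI_mem : ∀ y, y ∈ I ↔ y * (x - d) ∈ nR := fun y => Iff.rfl
  have hI_top : I ≠ ⊤ := by
    intro h
    have : (1 : R) ∈ I := h ▸ Submodule.mem_top
    rw [hI_mem, one_mul] at this
    exact hnot this
  obtain ⟨M, hM, hIM⟩ := Ideal.exists_le_maximal I hI_top
  have hnRI : nR ≤ I := fun y hy => (hI_mem y).mpr (nR.mul_mem_right _ hy)
  have hMn : n = under D M := by
    have h1 : n ≤ under D M := by
      intro a ha
      rw [under_def, mem_comap]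
      exact hIM (hnRI (Ideal.mem_map_of_mem _ ha))
    have h2 : under D M ≠ ⊤ := by
      rw [under_def]
      exact comap_ne_top _ hM.ne_top
    exact (IsMaximal.eq_of_le inferInstance h2 h1)
  let Q : n.primesOver R := ⟨M, hM.isPrime, ⟨hMn⟩⟩
  obtain ⟨I', hI'M, hI'⟩ := hsU Q
  obtain ⟨y, hyI', hyM⟩ := SetLike.not_le_iff_exists.mp hI'M
  apply hyM
  apply hIM
  rw [hI_mem]
  -- `y * (x - d) ∈ I' * M = (s Q) ⊆ nR`
  have h1 : y * (x - d) ∈ span {s Q} := by
    rw [hI', mul_comm y]
    exact Ideal.mul_mem_mul (hx' Q) hyI'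
  have h2 : s Q ∈ nR := by
    have h3 : (⟨s Q, hsD Q⟩ : D) ∈ n := by
      rw [hMn, under_def, mem_comap]
      exact hsQ Q
    exact Ideal.mem_map_of_mem (algebraMap D R) h3
  exact ((span_singleton_le_iff_mem _).mpr h2) h1

/-- **Norm descent.** Let `R ⊆ S` be a finite extension of Dedekind domains over a field `k`, all of
whose residue fields are `k`, and let `D ⊆ R` be a `k`-subalgebra over which `R` is finite and which
contains all norms from `S`. Then `D = R`. -/
theorem nds_eq_top (hR : ¬ IsField R)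
    (hres : ∀ P : Ideal S, P.IsMaximal → ∀ y : S, ∃ c : k, y - algebraMap k S c ∈ P)
    (hnorm : ∀ y : S, Algebra.intNorm R S y ∈ D) : D = ⊤ := by
  set N : Submodule D R := LinearMap.range (Algebra.linearMap D R) with hN
  have hfin : Module.Finite D (R ⧸ N) := inferInstance
  -- the quotient is trivial
  have htriv : ∀ m : R ⧸ N, m = 0 := by
    by_contra hne
    push Not at hne
    obtain ⟨m₀, hm₀⟩ := hne
    have hann : Module.annihilator D (R ⧸ N) ≠ ⊤ := by
      intro h
      have : (1 : D) ∈ Module.annihilator D (R ⧸ N) := h ▸ Submodule.mem_top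
      rw [Module.mem_annihilator] at this
      exact hm₀ (by simpa using this m₀)
    obtain ⟨n, hn, hle⟩ := Ideal.exists_le_maximal _ hann
    have htop : (⊤ : Submodule D (R ⧸ N)) ≤ n • ⊤ := by
      intro m _
      obtain ⟨x, rfl⟩ := Submodule.Quotient.mk_surjective N m
      obtain ⟨d, hd⟩ := nds_mem_sup D hR hres hnorm n x
      have h1 : x - (d : R) ∈ n • (⊤ : Submodule D R) := by
        rw [Ideal.smul_top_eq_map]
        exact hd
      have h2 : Submodule.Quotient.mk (p := N) x = N.mkQ (x - (d : R)) := by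
        rw [Submodule.mkQ_apply, Submodule.Quotient.mk_sub]
        have : Submodule.Quotient.mk (p := N) (d : R) = 0 := by
          rw [Submodule.Quotient.mk_eq_zero]
          exact ⟨d, rfl⟩
        rw [this, sub_zero]
      rw [h2]
      have h3 := Submodule.mem_map_of_mem (f := N.mkQ) h1
      rw [Submodule.map_smul''] at h3
      exact Submodule.smul_mono le_rfl le_top h3
    obtain ⟨r, hr1, hr2⟩ := Submodule.exists_sub_one_mem_and_smul_eq_zero_of_fg_of_le_smul n
      (⊤ : Submodule D (R ⧸ N)) Module.Finite.fg_top htop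
    have hr : r ∈ Module.annihilator D (R ⧸ N) :=
      Module.mem_annihilator.mpr fun m => hr2 m Submodule.mem_top
    have : (1 : D) ∈ n := by
      have e : (1 : D) = r - (r - 1) := by ring
      rw [e]
      exact n.sub_mem (hle hr) hr1
    exact hn.ne_top ((Ideal.eq_top_iff_one n).mpr this)
  rw [eq_top_iff]
  intro x _
  have := htriv (Submodule.Quotient.mk x)
  rw [Submodule.Quotient.mk_eq_zero] at this
  obtain ⟨d, hd⟩ := this
  rw [← hd]
  exact d.2

end Main

/-! ### discharging the residue field hypothesis -/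

section Res

variable {k S : Type*} [Field k] [IsAlgClosed k] [CommRing S] [Algebra k S] [Algebra.FiniteType k S]

/-- Nullstellensatz: over an algebraically closed field the residue fields of an algebra of finite
type are the base field. -/
theorem nds_hres_of_isAlgClosed (P : Ideal S) (hP : P.IsMaximal) (y : S) :
    ∃ c : k, y - algebraMap k S c ∈ P := by
  let _ : Field (S ⧸ P) := Quotient.field P
  have hfin : Module.Finite k (S ⧸ P) := finite_of_finite_type_of_isJacobsonRing k (S ⧸ P)
  have hint : Algebra.IsIntegral k (S ⧸ P) := inferInstance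
  obtain ⟨c, hc⟩ := (IsAlgClosed.algebraMap_bijective_of_isIntegral (k := k) (K := S ⧸ P)).2
    (Ideal.Quotient.mk P y)
  refine ⟨c, ?_⟩
  rw [← Ideal.Quotient.eq, ← hc]
  rfl

end Res

/-! ### convenience forms -/

section Forms

variable {k R S : Type*} [Field k] [CommRing R] [IsDedekindDomain R] [CommRing S]
  [IsDedekindDomain S] [Algebra k R] [Algebra k S] [Algebra R S] [IsScalarTower k R S]
  [Module.Finite R S] [FaithfulSMul R S]

variable (D : Subalgebra k R) [Module.Finite D R]

/-- Norm descent over an algebraically closed field. -/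
theorem nds_eq_top_of_isAlgClosed [IsAlgClosed k] [Algebra.FiniteType k S] (hR : ¬ IsField R)
    (hnorm : ∀ y : S, Algebra.intNorm R S y ∈ D) : D = ⊤ :=
  nds_eq_top D hR (fun P hP y => nds_hres_of_isAlgClosed P hP y) hnorm

/-- Norm descent with the norm hypothesis stated through the field norm of the fraction fields. -/
theorem nds_eq_top_of_fieldNorm (K L : Type*) [Field K] [Field L] [Algebra R K]
    [IsFractionRing R K] [Algebra S L] [IsFractionRing S L] [Algebra K L] [Algebra R L]
    [IsScalarTower R K L] [IsScalarTower R S L] [FiniteDimensional K L] (hR : ¬ IsField R)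
    (hres : ∀ P : Ideal S, P.IsMaximal → ∀ y : S, ∃ c : k, y - algebraMap k S c ∈ P)
    (hnorm : ∀ y : S, ∃ d : D, algebraMap R K (d : R) = Algebra.norm K (algebraMap S L y)) :
    D = ⊤ := by
  have : IsIntegralClosure S R L := IsIntegralClosure.of_isIntegrallyClosed S R L
  refine nds_eq_top D hR hres fun y => ?_
  obtain ⟨d, hd⟩ := hnorm y
  have h := Algebra.algebraMap_intNorm (A := R) (K := K) (L := L) (B := S) y
  rw [← hd] at h
  rw [IsFractionRing.injective R K h]
  exact d.2

end Forms

end Fermat.Agent.JT3
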